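import Fermat.Agent.CycloTowerReal.Step
import Fermat.Agent.Root.SummaryKummerIndex
import Fermat.Agent.Root.SummaryWeber

/-!
# Iwasawa's theorem for the real subfields

If `p ∤ h(ℚ(ζ_p)⁺)` then `p ∤ h(ℚ(ζ_(p^(n+1)))⁺)` for every `n`: by Kummer's index theorem the units of `ℚ(ζ_p)` are
cyclotomic units times `p`-th powers, and this climbs the tower.
-/

set_option autoImplicit false

noncomputable section

open NumberField

namespace FA.CycloTowerReal

open FA.CycloTower

variable {p : ℕ} [Fact p.Prime]

set_option backward.isDefEq.respectTransparency false in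
/-- **The base**. -/
theorem realGood_base (hp5 : 5 ≤ p) (K : Type) [Field K] [NumberField K] [IsCyclotomicExtension {p} ℚ K]
    (h : ¬ p ∣ classNumber (maximalRealSubfield K)) : RealGood p 0 K := by
  have hp : p.Prime := Fact.out
  have : NeZero p := ⟨hp.ne_zero⟩
  have : IsCMField K := IsCyclotomicExtension.Rat.isCMField K (S := {p}) ⟨p, rfl, by omega⟩
  have : IsGalois ℚ K := IsCyclotomicExtension.isGalois {p} ℚ K
  have : IsGalois (maximalRealSubfield K) K := IsGalois.tower_top_of_isGalois ℚ _ K
  refine ⟨h, fun ζ hζ u => ?_⟩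
  set ι := algebraMap (𝓞 (maximalRealSubfield K)) (𝓞 K)
  have hcop : Nat.Coprime (FA.Regular.cycloUnits p K).index p := by
    rw [FA.Summary.kummer_index p K hp5, Nat.coprime_comm]
    exact hp.coprime_iff_not_dvd.mpr h
  set x := Units.map ι.toMonoidHom u
  have hxC : x ^ (FA.Regular.cycloUnits p K).index ∈ FA.Regular.cycloUnits p K := Subgroup.pow_index_mem _ _
  obtain ⟨a, b, hab⟩ := Nat.isCoprime_iff_coprime.mpr hcop
  have hx : x = (x ^ (FA.Regular.cycloUnits p K).index) ^ a * (x ^ b) ^ p := by
    rw [← zpow_natCast x, ← zpow_mul, ← zpow_natCast (x ^ b), ← zpow_mul, ← zpow_add, mul_comm _ a, hab, zpow_one]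
  set c := (x ^ (FA.Regular.cycloUnits p K).index) ^ a
  have hc : c ∈ levelUnits p ζ := cycloUnits_le_levelUnits hp5 hζ (zpow_mem hxC a)
  have hNc : Units.map ι.toMonoidHom (normU (maximalRealSubfield K) c) ∈ levelUnits p ζ := by
    have : Units.map ι.toMonoidHom (normU (maximalRealSubfield K) c) =
        ∏ g : K ≃ₐ[maximalRealSubfield K] K, actU g c := Units.ext (RingOfIntegers.coe_injective (by
      rw [Units.coe_prod, map_prod]
      exact Algebra.norm_eq_prod_automorphisms (maximalRealSubfield K) ((c : 𝓞 K) : K)))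
    rw [this]
    refine prod_mem fun g _ => ?_
    have hζ1 : IsPrimitiveRoot ζ p := by simpa using hζ
    have hg : IsPrimitiveRoot (g • ζ) p := hζ1.map_of_injective
      (f := MulSemiringAction.toRingHom (K ≃ₐ[maximalRealSubfield K] K) (𝓞 K) g) (MulAction.injective g)
    obtain ⟨d, -, hd⟩ := hζ1.eq_pow_of_pow_eq_one hg.pow_eq_one
    refine map_mem_levelUnits (n := 0) hζ _ (fun hdvd => ?_) hd.symm hc
    rw [← hd, hζ1.pow_iff_coprime hp.pos] at hg
    exact hp.coprime_iff_not_dvd.mp hg.symm hdvd
  obtain ⟨m, hm⟩ : Odd p := hp.odd_of_ne_two (by omega)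
  have hsq : u ^ 2 = normU (maximalRealSubfield K) c * (normU (maximalRealSubfield K) (x ^ b)) ^ p := by
    rw [← map_pow, ← map_mul, ← hx]
    refine Units.ext (RingOfIntegers.coe_injective ?_)
    show ((u : 𝓞 (maximalRealSubfield K)) : maximalRealSubfield K) ^ 2 =
      Algebra.norm _ (algebraMap (maximalRealSubfield K) K ((u : 𝓞 (maximalRealSubfield K)) : maximalRealSubfield K))
    rw [Algebra.norm_algebraMap, Algebra.IsQuadraticExtension.finrank_eq_two (maximalRealSubfield K) K]
  rw [hm] at hsq
  have hu := eq_mul_pow_of_sq hsq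
  rw [← hm] at hu
  exact ⟨_, by rw [map_pow]; exact pow_mem hNc _, _, hu⟩

/-- **Iwasawa's theorem for the real subfields**. -/
theorem realGood_all (hp5 : 5 ≤ p)
    (base : ∀ (K : Type) [Field K] [NumberField K] [IsCyclotomicExtension {p} ℚ K],
      ¬ p ∣ classNumber (maximalRealSubfield K))
    (n : ℕ) (K : Type) [Field K] [NumberField K] [IsCyclotomicExtension {p ^ (n + 1)} ℚ K] : RealGood p n K := by
  have hodd : Odd p := (Fact.out : p.Prime).odd_of_ne_two (by omega)
  induction n generalizing K with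
  | zero =>
    have : IsCyclotomicExtension {p} ℚ K := by simpa using (inferInstance : IsCyclotomicExtension {p ^ (0 + 1)} ℚ K)
    exact realGood_base hp5 K (base K)
  | succ n ih => exact realGood_succ hodd (fun K _ _ _ => ih K) K

end FA.CycloTowerReal
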