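import Fermat.Agent.CycloTower.Main
import Mathlib.NumberTheory.NumberField.CMField
import Mathlib.NumberTheory.Cyclotomic.Gal

/-!
# The real subfields of the cyclotomic tower

Iwasawa's step for `K⁺_(n+1) / K⁺_n`: it is cyclic of degree `p`, ramified at one principal prime, and the units of
`K⁺_n` are norms of real cyclotomic units times `p`-th powers.
-/

set_option autoImplicit false

noncomputable section

open NumberField
open scoped nonZeroDivisors Pointwise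

namespace FA.CycloTowerReal

open FA.CycloTower

variable {p : ℕ} [Fact p.Prime]

/-- The inclusion of the real subfields. -/
theorem mem_maximalRealSubfield_map {F L : Type} [Field F] [Field L] [Algebra F L] (x : maximalRealSubfield F) :
    algebraMap F L (x : F) ∈ maximalRealSubfield L := fun φ => x.2 (φ.comp (algebraMap F L))

/-- The data of a level: `p ∤ h⁺` and real units are real cyclotomic units times `p`-th powers. -/
def RealGood (p n : ℕ) (K : Type) [Field K] [NumberField K] : Prop :=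
  ¬ p ∣ classNumber (maximalRealSubfield K) ∧ ∀ ζ : 𝓞 K, IsPrimitiveRoot ζ (p ^ (n + 1)) →
    ∀ u : (𝓞 (maximalRealSubfield K))ˣ, ∃ s : (𝓞 (maximalRealSubfield K))ˣ,
      Units.map (algebraMap (𝓞 (maximalRealSubfield K)) (𝓞 K)).toMonoidHom s ∈ levelUnits p ζ ∧
        ∃ v : (𝓞 (maximalRealSubfield K))ˣ, u = s * v ^ p

/-- An odd power is reached from a square. -/
theorem eq_mul_pow_of_sq {G : Type*} [CommGroup G] {m : ℕ} {u a b : G} (h : u ^ 2 = a * b ^ (2 * m + 1)) :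
    u = a ^ (m + 1) * (b ^ (m + 1) * u⁻¹) ^ (2 * m + 1) := by
  have h2 := congrArg (· ^ (m + 1)) h
  simp only [mul_pow, ← pow_mul] at h2
  rw [show 2 * (m + 1) = 2 * m + 1 + 1 by ring, pow_succ u] at h2
  rw [mul_pow, inv_pow, ← mul_assoc, ← pow_mul, mul_comm (m + 1), ← h2, mul_right_comm, mul_inv_cancel, one_mul]

/-- The norm down to a subfield of a cyclotomic unit, seen above. -/
theorem map_normU_mem {M L : Type} [Field M] [NumberField M] [Field L] [NumberField L] [Algebra M L] [IsGalois M L]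
    {n : ℕ} [IsCyclotomicExtension {p ^ (n + 2)} ℚ L] {ζ' : 𝓞 L} (hζ' : IsPrimitiveRoot ζ' (p ^ (n + 2)))
    {t : (𝓞 L)ˣ} (ht : t ∈ levelUnits p ζ') :
    Units.map (algebraMap (𝓞 M) (𝓞 L)).toMonoidHom (normU M t) ∈ levelUnits p ζ' := by
  have : Units.map (algebraMap (𝓞 M) (𝓞 L)).toMonoidHom (normU M t) = ∏ g : L ≃ₐ[M] L, actU g t :=
    Units.ext (RingOfIntegers.coe_injective (by
      rw [Units.coe_prod, map_prod]
      exact Algebra.norm_eq_prod_automorphisms M ((t : 𝓞 L) : L)))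
  rw [this]
  exact prod_mem fun g _ => actU_mem_levelUnits hζ' g ht

variable {F L : Type} [Field F] [NumberField F] [Field L] [NumberField L] [Algebra F L]

/-- An automorphism of a subfield extends, acting on `ζ'` as a power. -/
theorem exists_extension {A M : Type} [Field A] [NumberField A] [Field M] [NumberField M] [Algebra A M] [Algebra M L]
    {n : ℕ} [IsCyclotomicExtension {p ^ (n + 2)} ℚ L] {ζ' : 𝓞 L} (hζ' : IsPrimitiveRoot ζ' (p ^ (n + 2)))
    (g : M ≃ₐ[A] M) : ∃ G : 𝓞 L →+* 𝓞 L, ∃ b : ℕ, ¬ p ∣ b ∧ G ζ' = ζ' ^ b ∧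
      ∀ x : 𝓞 M, G (algebraMap (𝓞 M) (𝓞 L) x) = algebraMap (𝓞 M) (𝓞 L) (g • x) := by
  have : NeZero (p ^ (n + 2)) := ⟨pow_ne_zero _ (Fact.out : p.Prime).ne_zero⟩
  have : IsGalois ℚ L := IsCyclotomicExtension.isGalois {p ^ (n + 2)} ℚ L
  set G₀ : L →ₐ[ℚ] L := ((g.restrictScalars ℚ).toAlgHom).liftNormal L
  set G : L ≃ₐ[ℚ] L := AlgEquiv.ofBijective G₀ (Algebra.IsAlgebraic.algHom_bijective G₀)
  obtain ⟨b, hb, hG⟩ := smul_zeta_eq_pow (F := ℚ) hζ' G
  refine ⟨MulSemiringAction.toRingHom (L ≃ₐ[ℚ] L) (𝓞 L) G, b, hb, hG, fun x => RingOfIntegers.coe_injective ?_⟩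
  exact ((g.restrictScalars ℚ).toAlgHom).liftNormal_commutes L (x : M)

set_option backward.isDefEq.respectTransparency false in
/-- **The induction step**. -/
theorem realGood_succ (hodd : Odd p) {n : ℕ}
    (ih : ∀ (K : Type) [Field K] [NumberField K] [IsCyclotomicExtension {p ^ (n + 1)} ℚ K], RealGood p n K)
    (L : Type) [Field L] [NumberField L] [IsCyclotomicExtension {p ^ (n + 2)} ℚ L] : RealGood p (n + 1) L := by
  have hp : p.Prime := Fact.out
  have : NeZero (p ^ (n + 2)) := ⟨pow_ne_zero _ hp.ne_zero⟩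
  have : NeZero (p ^ (n + 1)) := ⟨pow_ne_zero _ hp.ne_zero⟩
  suffices ∀ ζ' : 𝓞 L, IsPrimitiveRoot ζ' (p ^ (n + 2)) → ¬ p ∣ classNumber (maximalRealSubfield L) ∧
      ∀ u : (𝓞 (maximalRealSubfield L))ˣ, ∃ s : (𝓞 (maximalRealSubfield L))ˣ,
        Units.map (algebraMap (𝓞 (maximalRealSubfield L)) (𝓞 L)).toMonoidHom s ∈ levelUnits p ζ' ∧
          ∃ v : (𝓞 (maximalRealSubfield L))ˣ, u = s * v ^ p from
    ⟨(this _ (IsCyclotomicExtension.zeta_spec (p ^ (n + 2)) ℚ L).toInteger_isPrimitiveRoot).1,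
      fun ζ' h => (this ζ' h).2⟩
  intro ζ' hζ'
  have hp2 : 2 < p := by
    have := hp.two_le
    obtain ⟨k, hk⟩ := hodd
    omega
  have hζL : IsPrimitiveRoot (ζ' : L) (p ^ (n + 2)) :=
    hζ'.map_of_injective (f := algebraMap (𝓞 L) L) (IsFractionRing.injective (𝓞 L) L)
  have hζp : IsPrimitiveRoot ((ζ' : L) ^ p) (p ^ (n + 1)) := hζL.pow (pow_pos hp.pos _) (pow_succ' p (n + 1))
  set F := IntermediateField.adjoin ℚ {(ζ' : L) ^ p}
  have : IsCyclotomicExtension {p ^ (n + 1)} ℚ F := hζp.intermediateField_adjoin_isCyclotomicExtension ℚ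
  have : IsGalois ℚ L := IsCyclotomicExtension.isGalois {p ^ (n + 2)} ℚ L
  have hdeg : Module.finrank F L = p := by
    have h := Module.finrank_mul_finrank ℚ F L
    rw [IsCyclotomicExtension.Rat.finrank (p ^ (n + 1)) F, IsCyclotomicExtension.Rat.finrank (p ^ (n + 2)) L,
      Nat.totient_prime_pow_succ hp, Nat.totient_prime_pow_succ hp, pow_succ p n, mul_right_comm] at h
    exact Nat.eq_of_mul_eq_mul_left (pow_pos hp.pos n) (Nat.eq_of_mul_eq_mul_right (Nat.sub_pos_of_lt hp.one_lt) h)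
  have : IsCMField L := IsCyclotomicExtension.Rat.isCMField L (S := {p ^ (n + 2)})
    ⟨_, rfl, lt_of_lt_of_le hp2 (Nat.le_self_pow (by omega) p)⟩
  have : IsCMField F := IsCyclotomicExtension.Rat.isCMField F (S := {p ^ (n + 1)})
    ⟨_, rfl, lt_of_lt_of_le hp2 (Nat.le_self_pow (by omega) p)⟩
  have hζF : IsPrimitiveRoot (⟨(ζ' : L) ^ p, IntermediateField.mem_adjoin_simple_self ℚ _⟩ : F) (p ^ (n + 1)) :=
    IsPrimitiveRoot.of_map_of_injective (f := F.val) (by exact hζp) F.val.injective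
  obtain ⟨hhF, hUF⟩ := ih F
  set ζ := hζF.toInteger
  have hζmap : algebraMap (𝓞 F) (𝓞 L) ζ = ζ' ^ p := RingOfIntegers.ext rfl
  set F₀ := maximalRealSubfield F
  set L₀ := maximalRealSubfield L
  let _ : Algebra F₀ L₀ :=
    (((algebraMap F L).comp F₀.subtype).codRestrict L₀ fun x => mem_maximalRealSubfield_map x).toAlgebra
  have : IsScalarTower F₀ L₀ L := IsScalarTower.of_algebraMap_eq fun x => rfl
  have : IsAbelianGalois ℚ L := IsCyclotomicExtension.isAbelianGalois {p ^ (n + 2)} ℚ L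
  have : IsAbelianGalois ℚ L₀ := IsAbelianGalois.tower_bot ℚ L₀ L
  have : IsGalois F₀ L₀ := IsGalois.tower_top_of_isGalois ℚ F₀ L₀
  have : IsGalois F₀ L := IsGalois.tower_top_of_isGalois ℚ F₀ L
  have : IsGalois L₀ L := IsGalois.tower_top_of_isGalois ℚ L₀ L
  have hdegR : Module.finrank F₀ L₀ = p := by
    have h1 := Module.finrank_mul_finrank F₀ F L
    have h2 := Module.finrank_mul_finrank F₀ L₀ L
    rw [hdeg, Algebra.IsQuadraticExtension.finrank_eq_two F₀ F] at h1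
    rw [Algebra.IsQuadraticExtension.finrank_eq_two L₀ L] at h2
    omega
  have hG : IsCyclic (L₀ ≃ₐ[F₀] L₀) :=
    isCyclic_of_prime_card (p := p) (by rw [IsGalois.card_aut_eq_finrank, hdegR])
  obtain ⟨σ, hσ⟩ := hG.exists_generator
  set ι := algebraMap (𝓞 L₀) (𝓞 L)
  have hιinj : Function.Injective ι := FaithfulSMul.algebraMap_injective (𝓞 L₀) (𝓞 L)
  have hlam : Prime (ζ' - 1) := hζL.zeta_sub_one_prime
  set π : 𝓞 L₀ := RingOfIntegers.norm L₀ (ζ' - 1)
  -- the prime `π`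
  have hπi : ι π = ∏ g : L ≃ₐ[L₀] L, g • (ζ' - 1) := RingOfIntegers.coe_injective (by
    rw [map_prod]
    exact Algebra.norm_eq_prod_automorphisms L₀ ((ζ' - 1 : 𝓞 L) : L))
  have hπmem : ζ' - 1 ∣ ι π := by
    rw [hπi]
    exact dvd_trans (by rw [one_smul]) (Finset.dvd_prod_of_mem _ (Finset.mem_univ (1 : L ≃ₐ[L₀] L)))
  have hπ0 : π ≠ 0 := fun e => by
    have h : (π : L₀) = 0 := by rw [e]; rfl
    rw [RingOfIntegers.coe_norm, Algebra.norm_eq_zero_iff] at h
    exact hlam.ne_zero (RingOfIntegers.coe_injective h)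
  have habs : Ideal.absNorm (Ideal.span {π}) = p := by
    have h : Ideal.span {π} = Ideal.relNorm (𝓞 L₀) (Ideal.span {ζ' - 1}) := by
      rw [Ideal.relNorm_singleton, intNorm_eq_norm]
    rw [h, Ideal.absNorm_relNorm, Ideal.absNorm_span_singleton,
      show ζ' - 1 = hζL.toInteger - 1 from rfl,
      hζL.norm_toInteger_sub_one_of_prime_ne_two (k := n + 1) (by omega)]
    simp
  have hπ : (Ideal.span {π}).IsMaximal :=
    (Ideal.isPrime_of_irreducible_absNorm (by rw [habs]; exact hp)).isMaximal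
      (fun e => hπ0 (Ideal.span_singleton_eq_bot.mp e))
  have hπfix : ∀ g : L₀ ≃ₐ[F₀] L₀, g • Ideal.span {π} = Ideal.span {π} ∧
      ∃ w : (𝓞 L₀)ˣ, Units.map ι.toMonoidHom w ∈ levelUnits p ζ' ∧ g • π = w * π := fun g => by
    obtain ⟨G, b, hb, hGζ, hGι⟩ := exists_extension (L := L) hζ' g
    obtain ⟨c, hc, hc'⟩ := exists_levelUnit (n := n + 1) hζ' hb
    have hfac : ∃ e ∈ levelUnits p ζ', ι π = (e : (𝓞 L)ˣ) * (ζ' - 1) ^ Fintype.card (L ≃ₐ[L₀] L) := by
      choose w hw hw' using fun g : L ≃ₐ[L₀] L => exists_smul_lam hζ' g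
      refine ⟨∏ g, w g, prod_mem fun g _ => hw g, ?_⟩
      rw [hπi, Finset.prod_congr rfl fun g _ => hw' g, Finset.prod_mul_distrib, Finset.prod_const, Units.coe_prod,
        Finset.card_univ]
    obtain ⟨e, he, heq⟩ := hfac
    set d := Fintype.card (L ≃ₐ[L₀] L)
    set W : (𝓞 L)ˣ := Units.map G.toMonoidHom e * c ^ d * e⁻¹
    have hW : W ∈ levelUnits p ζ' :=
      mul_mem (mul_mem (map_mem_levelUnits (n := n + 1) hζ' G hb hGζ he) (pow_mem hc _)) (inv_mem he)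
    have hWπ : ι (g • π) = (W : 𝓞 L) * ι π := by
      rw [← hGι, heq, map_mul, map_pow, map_sub, map_one, hGζ, ← hc', mul_pow]
      simp only [W, Units.val_mul, Units.val_pow_eq_pow_val]
      show G (e : 𝓞 L) * ((c : 𝓞 L) ^ d * (ζ' - 1) ^ d) =
        G (e : 𝓞 L) * (c : 𝓞 L) ^ d * ((e⁻¹ : (𝓞 L)ˣ) : 𝓞 L) * ((e : 𝓞 L) * (ζ' - 1) ^ d)
      rw [mul_assoc _ ((e⁻¹ : (𝓞 L)ˣ) : 𝓞 L), ← mul_assoc ((e⁻¹ : (𝓞 L)ˣ) : 𝓞 L), Units.inv_mul, one_mul,
        mul_assoc]
    have hmem : g • π ∈ Ideal.span {π} := by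
      have hQ : ((Ideal.span {ζ' - 1}).comap ι) = Ideal.span {π} :=
        (hπ.eq_of_le (Ideal.comap_ne_top _ fun e => hlam.not_isUnit (Ideal.span_singleton_eq_top.mp e))
          ((Ideal.span_singleton_le_iff_mem _).mpr (Ideal.mem_span_singleton.mpr hπmem))).symm
      rw [← hQ, Ideal.mem_comap, Ideal.mem_span_singleton, hWπ]
      exact hπmem.mul_left _
    obtain ⟨r, hr⟩ := Ideal.mem_span_singleton.mp hmem
    have hιr : ι r = W := mul_right_cancel₀ (fun e => hπ0 (hιinj (e.trans (map_zero ι).symm)))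
      (by rw [← hWπ, hr, map_mul, mul_comm])
    have hru : IsUnit r := isUnit_of_map_unit ι r (hιr ▸ W.isUnit)
    refine ⟨by rw [smul_span, hr, Ideal.span_singleton_mul_right_unit hru], hru.unit, ?_, ?_⟩
    · rwa [show Units.map ι.toMonoidHom hru.unit = W from Units.ext hιr]
    · rw [hr, IsUnit.unit_spec, mul_comm]
  have hunr : ∀ P : Ideal (𝓞 L₀), P.IsPrime → P ≠ ⊥ → π ∉ P → P.ramificationIdx (𝓞 F₀) = 1 := by
    intro P _ hP hπP
    have : P.IsMaximal := ‹P.IsPrime›.isMaximal hP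
    obtain ⟨Q, hQmax, hQ⟩ := Ideal.exists_maximal_ideal_liesOver_of_isIntegral (S := 𝓞 L) P
    have : Q.IsPrime := hQmax.isPrime
    have hQ0 : Q ≠ ⊥ := fun e => hP (by rw [hQ.over, e, Ideal.under_bot])
    have hQπ : (hζL.toInteger - 1) ∉ Q := fun h => hπP (by
      rw [hQ.over, Ideal.under_def, Ideal.mem_comap]
      exact Ideal.mem_of_dvd Q hπmem h)
    have h1 := ramificationIdx_eq_one (F := F₀) (k := n + 1) hζL hQ0 hQπ
    exact Nat.dvd_one.mp (h1 ▸ Ideal.ramificationIdx_below_dvd P Q)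
  set S := (levelUnits p ζ').comap (Units.map ι.toMonoidHom)
  have hS : ∀ g : L₀ ≃ₐ[F₀] L₀, ∀ s ∈ S, actU g s ∈ S := fun g s hs => by
    obtain ⟨G, b, hb, hGζ, hGι⟩ := exists_extension (L := L) hζ' g
    have h := map_mem_levelUnits (n := n + 1) hζ' G hb hGζ hs
    rwa [show Units.map G.toMonoidHom (Units.map ι.toMonoidHom s) = Units.map ι.toMonoidHom (actU g s) from
      Units.ext (hGι s)] at h
  have hU : ∀ u : (𝓞 F₀)ˣ, ∃ s ∈ S, ∃ v : (𝓞 F₀)ˣ, u = normU F₀ s * v ^ p := fun u => by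
    obtain ⟨s, hs, v, rfl⟩ := hUF ζ hζF.toInteger_isPrimitiveRoot u
    obtain ⟨t, ht, hts⟩ := levelUnits_le_map_normU hζ' hdeg (Or.inl hodd) hζmap hs
    obtain ⟨m, hm⟩ := hodd
    have hN : normU F₀ (normU L₀ t) = s ^ 2 := Units.ext (RingOfIntegers.coe_injective (by
      have hts' : Algebra.norm F ((t : 𝓞 L) : L) = algebraMap F₀ F ((s : 𝓞 F₀) : F₀) :=
        congrArg (fun x : (𝓞 F)ˣ => ((x : 𝓞 F) : F)) hts
      show Algebra.norm F₀ (Algebra.norm L₀ ((t : 𝓞 L) : L)) = ((s : 𝓞 F₀) : F₀) ^ 2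
      rw [Algebra.norm_norm, ← Algebra.norm_norm (S := F), hts', Algebra.norm_algebraMap,
        Algebra.IsQuadraticExtension.finrank_eq_two F₀ F]))
    refine ⟨normU L₀ t ^ (m + 1), pow_mem (show normU L₀ t ∈ S from map_normU_mem hζ' ht) _,
      (v ^ (2 * (m + 1))) * (s * v ^ p)⁻¹, ?_⟩
    rw [map_pow, hN, hm, pow_mul v]
    refine eq_mul_pow_of_sq ?_
    rw [mul_pow, ← pow_mul, mul_comm (2 * m + 1) 2, pow_mul]
  refine ⟨not_dvd_classNumber_step hσ hdegR hπ (fun g => (hπfix g).1) hunr hhF fun u => ?_, fun u => ?_⟩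
  · obtain ⟨s, -, v, rfl⟩ := hU u
    refine ⟨s * Units.map (algebraMap (𝓞 F₀) (𝓞 L₀)).toMonoidHom v, ?_⟩
    rw [map_mul]
    congr 1
    refine Units.ext (RingOfIntegers.ext ?_)
    rw [Units.val_pow_eq_pow_val, ← hdegR]
    show Algebra.norm F₀ (algebraMap F₀ L₀ ((v : 𝓞 F₀) : F₀)) = ((v : 𝓞 F₀) : F₀) ^ Module.finrank F₀ L₀
    rw [Algebra.norm_algebraMap]
  · obtain ⟨w, hwS, hw⟩ := (hπfix σ).2
    obtain ⟨s, hs, v, hv⟩ := units_step hσ hdegR hπ0 hπ (fun g => (hπfix g).1) hunr hhF hS (S := S) hwS hw hU u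
    exact ⟨s, hs, v, hv⟩

end FA.CycloTowerReal
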